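import Mathlib

set_option autoImplicit false

namespace Fermat.Agent.S49

/-- The correction term in the weight-two Hecke relation of level `N` at the prime `ℓ`. -/
noncomputable def corr (N : ℕ) (b : ℕ → ℂ) (ℓ n : ℕ) : ℂ :=
  if ℓ ∣ N then 0 else if ℓ ∣ n then (ℓ : ℂ) * b (n / ℓ) else 0

/-- The formal weight-two Hecke relations of level `N` with eigenvalues `lam`. -/
def HeckeRel (N : ℕ) (b lam : ℕ → ℂ) : Prop :=
  ∀ ℓ : ℕ, ℓ.Prime → ∀ n : ℕ, b (n * ℓ) + corr N b ℓ n = lam ℓ * b n

theorem HeckeRel.eigenvalue_eq {N : ℕ} {b lam : ℕ → ℂ} (h : HeckeRel N b lam) (h1 : b 1 = 1)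
    {ℓ : ℕ} (hℓ : ℓ.Prime) : lam ℓ = b ℓ := by
  have := h ℓ hℓ 1
  have hnd : ¬ ℓ ∣ 1 := by
    intro hd
    exact hℓ.one_lt.ne' (Nat.dvd_one.mp hd)
  simp only [corr, hnd, if_false, ite_self, add_zero, one_mul, h1, mul_one] at this
  exact this.symm

theorem HeckeRel.self_of_one {N : ℕ} {b lam : ℕ → ℂ} (h : HeckeRel N b lam) (h1 : b 1 = 1) :
    HeckeRel N b b := by
  intro ℓ hℓ n
  rw [h ℓ hℓ n, h.eigenvalue_eq h1 hℓ]

theorem HeckeRel.vanish {N : ℕ} {b lam : ℕ → ℂ} (h : HeckeRel N b lam) (h1 : b 1 = 0) :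
    ∀ n : ℕ, 1 ≤ n → b n = 0 := by
  intro n
  induction n using Nat.strong_induction_on with
  | _ n ih =>
    intro hn
    rcases Nat.eq_or_lt_of_le hn with h1n | h1n
    · rw [← h1n]; exact h1
    · obtain ⟨ℓ, hℓ, hℓn⟩ := Nat.exists_prime_and_dvd (show n ≠ 1 by omega)
      obtain ⟨m, rfl⟩ := hℓn
      have hm : 1 ≤ m := by
        rcases Nat.eq_zero_or_pos m with h0 | h0
        · subst h0; simp at hn
        · exact h0
      have hlt : m < ℓ * m := by
        have := hℓ.one_lt
        nlinarith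
      have hrel := h ℓ hℓ m
      rw [ih m hlt hm, mul_zero] at hrel
      have hcorr : corr N b ℓ m = 0 := by
        unfold corr
        split_ifs with h2 h3
        · rfl
        · obtain ⟨k, rfl⟩ := h3
          have hk : 1 ≤ k := by
            rcases Nat.eq_zero_or_pos k with h0 | h0
            · subst h0; simp at hm
            · exact h0
          have hklt : k < ℓ * (ℓ * k) := by
            have := hℓ.one_lt
            nlinarith
          rw [Nat.mul_div_cancel_left k hℓ.pos, ih k hklt hk, mul_zero]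
        · rfl
      rw [hcorr, add_zero] at hrel
      rw [mul_comm]; exact hrel

theorem HeckeRel.mul_of_coprime {N : ℕ} {b : ℕ → ℂ} (h : HeckeRel N b b) (h1 : b 1 = 1) :
    ∀ m n : ℕ, m.Coprime n → b (m * n) = b m * b n := by
  intro m
  induction m using Nat.strong_induction_on with
  | _ m ih =>
    intro n hmn
    rcases Nat.eq_zero_or_pos m with h0 | hpos
    · subst h0
      have : n = 1 := by simpa using hmn
      subst this
      simp [h1]
    rcases Nat.eq_or_lt_of_le (Nat.succ_le_of_lt hpos) with h1m | h1m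
    · have : m = 1 := h1m.symm
      subst this
      simp [h1]
    obtain ⟨ℓ, hℓ, hℓm⟩ := Nat.exists_prime_and_dvd (show m ≠ 1 by omega)
    obtain ⟨m', rfl⟩ := hℓm
    have hm' : 1 ≤ m' := by
      rcases Nat.eq_zero_or_pos m' with h0 | h0
      · subst h0; simp at hpos
      · exact h0
    have hlt : m' < ℓ * m' := by
      have := hℓ.one_lt
      nlinarith
    have hcop' : m'.Coprime n := Nat.Coprime.coprime_mul_left hmn
    have hℓn : ¬ ℓ ∣ n := by
      intro hd
      have hcl : ℓ.Coprime n := Nat.Coprime.coprime_mul_right hmn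
      have := Nat.eq_one_of_dvd_coprimes hcl (dvd_refl ℓ) hd
      exact hℓ.one_lt.ne' this
    have hIH := ih m' hlt n hcop'
    have hrel1 := h ℓ hℓ (m' * n)
    have hrel2 := h ℓ hℓ m'
    have hcorr : corr N b ℓ (m' * n) = corr N b ℓ m' * b n := by
      unfold corr
      by_cases hN : ℓ ∣ N
      · simp [hN]
      · simp only [hN, if_false]
        by_cases hd : ℓ ∣ m'
        · have hd' : ℓ ∣ m' * n := Dvd.dvd.mul_right hd n
          simp only [hd, hd', if_true]
          obtain ⟨k, rfl⟩ := hd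
          have hk : 1 ≤ k := by
            rcases Nat.eq_zero_or_pos k with h0 | h0
            · subst h0; simp at hm'
            · exact h0
          have hklt : k < ℓ * (ℓ * k) := by
            have := hℓ.one_lt
            nlinarith
          have hcopk : k.Coprime n := Nat.Coprime.coprime_mul_left hcop'
          rw [Nat.mul_div_cancel_left k hℓ.pos, mul_assoc, Nat.mul_div_cancel_left (k * n) hℓ.pos,
            ih k hklt n hcopk]
          ring
        · have hd' : ¬ ℓ ∣ m' * n := by
            intro hdd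
            rcases (Nat.Prime.dvd_mul hℓ).mp hdd with h2 | h2
            · exact hd h2
            · exact hℓn h2
          simp [hd, hd']
    have e1 : ℓ * m' * n = m' * n * ℓ := by ring
    have e2 : ℓ * m' = m' * ℓ := by ring
    rw [e1]
    have hb1 : b (m' * n * ℓ) = b ℓ * b (m' * n) - corr N b ℓ (m' * n) := by
      rw [← hrel1]; ring
    have hb2 : b (ℓ * m') = b ℓ * b m' - corr N b ℓ m' := by
      rw [e2, ← hrel2]; ring
    rw [hb1, hb2, hcorr, hIH]
    ring

theorem HeckeRel.prime_pow_of_not_dvd {N : ℕ} {b : ℕ → ℂ} (h : HeckeRel N b b)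
    (p r : ℕ) (hp : p.Prime) (hpN : ¬ p ∣ N) :
    b (p ^ (r + 2)) = b p * b (p ^ (r + 1)) - p * b (p ^ r) := by
  have hrel := h p hp (p ^ (r + 1))
  have hd : p ∣ p ^ (r + 1) := dvd_pow_self p (Nat.succ_ne_zero r)
  have hdiv : p ^ (r + 1) / p = p ^ r := by
    rw [pow_succ, Nat.mul_div_cancel _ hp.pos]
  simp only [corr, hpN, if_false, hd, if_true, hdiv] at hrel
  have e : p ^ (r + 2) = p ^ (r + 1) * p := by ring
  rw [e, ← hrel]; ring

theorem HeckeRel.prime_pow_of_dvd {N : ℕ} {b : ℕ → ℂ} (h : HeckeRel N b b)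
    (p r : ℕ) (hp : p.Prime) (hpN : p ∣ N) :
    b (p ^ (r + 2)) = b p * b (p ^ (r + 1)) := by
  have hrel := h p hp (p ^ (r + 1))
  simp only [corr, hpN, if_true, add_zero] at hrel
  have e : p ^ (r + 2) = p ^ (r + 1) * p := by ring
  rw [e, hrel]

end Fermat.Agent.S49
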