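import Mathlib

set_option autoImplicit false

namespace Fermat.Agent.S49

open Module

/-- A commuting family of endomorphisms of a finite-dimensional vector space over an
algebraically closed field has a common eigenvector in every nonzero stable subspace. -/
theorem exists_common_eigenvector {K V : Type*} [Field K] [IsAlgClosed K] [AddCommGroup V]
    [Module K V] [FiniteDimensional K V]
    (𝒯 : Set (Module.End K V)) (hcomm : ∀ s ∈ 𝒯, ∀ t ∈ 𝒯, Commute s t) :
    ∀ (n : ℕ) (W : Submodule K V), finrank K W = n → W ≠ ⊥ →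
      (∀ t ∈ 𝒯, ∀ w ∈ W, t w ∈ W) →
      ∃ v ∈ W, v ≠ 0 ∧ ∀ t ∈ 𝒯, ∃ μ : K, t v = μ • v := by
  intro n
  induction n using Nat.strong_induction_on with
  | _ n ih =>
    intro W hn hW hstab
    by_cases hsc : ∀ t ∈ 𝒯, ∃ μ : K, ∀ w ∈ W, t w = μ • w
    · obtain ⟨v, hvW, hv0⟩ := Submodule.exists_mem_ne_zero_of_ne_bot hW
      refine ⟨v, hvW, hv0, fun t ht => ?_⟩
      obtain ⟨μ, hμ⟩ := hsc t ht
      exact ⟨μ, hμ v hvW⟩
    · push Not at hsc
      obtain ⟨t, ht, hns⟩ := hsc
      -- restrict t to W and find an eigenvalue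
      have hWnt : Nontrivial W := Submodule.nontrivial_iff_ne_bot.mpr hW
      let tW : Module.End K W := t.restrict (hstab t ht)
      obtain ⟨μ, hμ⟩ := Module.End.exists_eigenvalue tW
      obtain ⟨w, hw⟩ := hμ.exists_hasEigenvector
      -- W' = { x ∈ W | t x = μ x }
      let W' : Submodule K V := W ⊓ LinearMap.ker (t - μ • (1 : Module.End K V))
      have hmemW' : ∀ x, x ∈ W' ↔ x ∈ W ∧ t x = μ • x := by
        intro x
        simp only [W', Submodule.mem_inf, LinearMap.mem_ker, LinearMap.sub_apply,
          LinearMap.smul_apply, Module.End.one_apply, sub_eq_zero]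
      have hwW' : (w : V) ∈ W' := by
        rw [hmemW']
        refine ⟨w.2, ?_⟩
        have := hw.apply_eq_smul
        have h2 := congrArg (Subtype.val) this
        simpa [tW] using h2
      have hw0 : (w : V) ≠ 0 := by
        intro h
        exact hw.2 (Subtype.ext h)
      have hW'ne : W' ≠ ⊥ := by
        intro h
        rw [h] at hwW'
        exact hw0 ((Submodule.mem_bot K).mp hwW')
      have hW'le : W' ≤ W := inf_le_left
      have hW'lt : W' < W := by
        refine lt_of_le_of_ne hW'le ?_
        intro heq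
        obtain ⟨x, hxW, hx⟩ := hns μ
        apply hx
        have : x ∈ W' := heq ▸ hxW
        exact ((hmemW' x).mp this).2
      have hfr : finrank K W' < n := by
        rw [← hn]
        exact Submodule.finrank_lt_finrank_of_lt hW'lt
      have hstab' : ∀ s ∈ 𝒯, ∀ x ∈ W', s x ∈ W' := by
        intro s hs x hx
        rw [hmemW'] at hx ⊢
        refine ⟨hstab s hs x hx.1, ?_⟩
        have hc : t (s x) = s (t x) := by
          have := hcomm t ht s hs
          have h3 := congrArg (fun f : Module.End K V => f x) this.eq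
          simpa using h3
        rw [hc, hx.2, map_smul]
      exact
        let ⟨v, hv, hv0, hve⟩ := ih (finrank K W') hfr W' rfl hW'ne hstab'
        ⟨v, hW'le hv, hv0, hve⟩

end Fermat.Agent.S49
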