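import Mathlib
import Fermat.Agent.S49.LinAlg

set_option linter.style.haveILetI false
set_option autoImplicit false

namespace Fermat.Agent.S49

open Module

/-- Abstract Deligne–Serre lifting: a commutative ring `A`, finite over `ℤ`, acting faithfully on a
finite-dimensional complex vector space, has, for every ring homomorphism `θ` to a field, a
common eigenvector whose eigencharacter has kernel inside the kernel of `θ`. -/
theorem exists_eigen_character {A : Type*} [CommRing A] [Module.Finite ℤ A]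
    {V : Type*} [AddCommGroup V] [Module ℂ V] [FiniteDimensional ℂ V]
    (ρ : A →+* Module.End ℂ V) (hρ : Function.Injective ρ)
    {k : Type*} [Field k] (θ : A →+* k) :
    ∃ (v : V) (χ : A →+* ℂ), v ≠ 0 ∧ (∀ t : A, ρ t v = χ t • v) ∧
      RingHom.ker χ ≤ RingHom.ker θ := by
  classical
  haveI : IsNoetherianRing A := IsNoetherianRing.of_finite ℤ A
  haveI h𝔫 : (RingHom.ker θ).IsPrime := RingHom.ker_isPrime θ
  obtain ⟨𝔭, h𝔭min, h𝔭le⟩ := Ideal.exists_minimalPrimes_le (I := (⊥ : Ideal A))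
    (J := RingHom.ker θ) bot_le
  have h𝔭ass : 𝔭 ∈ associatedPrimes A A := by
    apply Module.associatedPrimes.minimalPrimes_annihilator_subset_associatedPrimes A A
    have hann : Module.annihilator A A = ⊥ := by
      rw [Module.annihilator_eq_bot]
      infer_instance
    rw [hann]
    exact h𝔭min
  obtain ⟨h𝔭prime, s, hs⟩ := (isAssociatedPrime_iff (M := A)).mp h𝔭ass
  haveI := h𝔭prime
  have hmem : ∀ t : A, t ∈ 𝔭 ↔ t * s = 0 := by
    intro t
    rw [hs, Submodule.mem_colon_singleton]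
    simp
  have hs0 : s ≠ 0 := by
    intro h0
    apply h𝔭prime.ne_top
    rw [Ideal.eq_top_iff_one, hmem, h0, mul_zero]
  -- the subspace killed by 𝔭
  let W₀ : Submodule ℂ V :=
    { carrier := {v | ∀ t ∈ 𝔭, ρ t v = 0}
      add_mem' := by
        intro x y hx hy t ht
        rw [map_add, hx t ht, hy t ht, add_zero]
      zero_mem' := by
        intro t _
        exact map_zero _
      smul_mem' := by
        intro c x hx t ht
        rw [map_smul, hx t ht, smul_zero] }
  have hW₀mem : ∀ v, v ∈ W₀ ↔ ∀ t ∈ 𝔭, ρ t v = 0 := fun v => Iff.rfl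
  have hρs : ρ s ≠ 0 := by
    intro h
    apply hs0
    apply hρ
    rw [h, map_zero]
  obtain ⟨v₀, hv₀⟩ : ∃ v₀, ρ s v₀ ≠ 0 := by
    by_contra hcon
    push Not at hcon
    apply hρs
    ext x
    simpa using hcon x
  have hW₀ne : W₀ ≠ ⊥ := by
    intro h
    have hm : ρ s v₀ ∈ W₀ := by
      rw [hW₀mem]
      intro t ht
      have : ρ t (ρ s v₀) = ρ (t * s) v₀ := by
        rw [map_mul]; rfl
      rw [this, (hmem t).mp ht, map_zero]
      rfl
    rw [h] at hm
    exact hv₀ ((Submodule.mem_bot ℂ).mp hm)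
  have hcomm : ∀ a ∈ Set.range ρ, ∀ b ∈ Set.range ρ, Commute a b := by
    rintro _ ⟨a, rfl⟩ _ ⟨b, rfl⟩
    show ρ a * ρ b = ρ b * ρ a
    rw [← map_mul, ← map_mul, mul_comm]
  have hstab : ∀ t ∈ Set.range ρ, ∀ w ∈ W₀, t w ∈ W₀ := by
    rintro _ ⟨a, rfl⟩ w hw
    rw [hW₀mem] at hw ⊢
    intro t ht
    have : ρ t (ρ a w) = ρ a (ρ t w) := by
      have h1 : ρ t (ρ a w) = ρ (t * a) w := by rw [map_mul]; rfl
      have h2 : ρ a (ρ t w) = ρ (a * t) w := by rw [map_mul]; rfl
      rw [h1, h2, mul_comm]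
    rw [this, hw t ht, map_zero]
  obtain ⟨v, hvW, hv0, hve⟩ :=
    exists_common_eigenvector (Set.range ρ) hcomm (finrank ℂ W₀) W₀ rfl hW₀ne hstab
  have hve' : ∀ t : A, ∃ μ : ℂ, ρ t v = μ • v := fun t => hve (ρ t) ⟨t, rfl⟩
  choose χ₀ hχ₀ using hve'
  have huniq : ∀ {μ ν : ℂ}, μ • v = ν • v → μ = ν := by
    intro μ ν h
    by_contra hne
    have h2 : (μ - ν) • v = 0 := by rw [sub_smul, h, sub_self]
    rcases smul_eq_zero.mp h2 with h3 | h3
    · exact hne (sub_eq_zero.mp h3)
    · exact hv0 h3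
  let χ : A →+* ℂ :=
    { toFun := χ₀
      map_one' := by
        apply huniq
        rw [← hχ₀ 1, map_one, one_smul]
        rfl
      map_mul' := by
        intro a b
        apply huniq
        rw [← hχ₀ (a * b), map_mul, Module.End.mul_apply, hχ₀ b, map_smul, hχ₀ a, smul_smul,
          mul_comm]
      map_zero' := by
        apply huniq
        rw [← hχ₀ 0, map_zero, zero_smul]
        rfl
      map_add' := by
        intro a b
        apply huniq
        rw [← hχ₀ (a + b), map_add, LinearMap.add_apply, hχ₀ a, hχ₀ b, add_smul] }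
  have hχ : ∀ t : A, ρ t v = χ t • v := hχ₀
  refine ⟨v, χ, hv0, hχ, ?_⟩
  -- kernel comparison
  have h𝔭χ : 𝔭 ≤ RingHom.ker χ := by
    intro t ht
    rw [RingHom.mem_ker]
    have h1 := (hW₀mem v).mp hvW t ht
    rw [hχ t] at h1
    rcases smul_eq_zero.mp h1 with h3 | h3
    · exact h3
    · exact absurd h3 hv0
  have hχ𝔭 : RingHom.ker χ ≤ 𝔭 := by
    intro x hx
    by_contra hx𝔭
    have hlt := Ideal.comap_lt_comap_of_integral_mem_sdiff (R := ℤ) h𝔭χ
      (x := x) ⟨hx, hx𝔭⟩ (IsIntegral.of_finite ℤ x)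
    have hbot : (RingHom.ker χ).comap (algebraMap ℤ A) = ⊥ := by
      rw [eq_bot_iff]
      intro n hn
      rw [Ideal.mem_comap, RingHom.mem_ker] at hn
      have : ((n : ℤ) : ℂ) = 0 := by
        rw [← hn]
        simp
      rw [Ideal.mem_bot]
      exact_mod_cast this
    rw [hbot] at hlt
    exact not_lt_bot hlt
  exact hχ𝔭.trans h𝔭le

/-- Abstract lying-over step: the eigencharacter `χ` takes values in the algebraic integers and
the maximal ideal `ker θ` is the contraction of a maximal ideal of `integralClosure ℤ ℂ`. -/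
theorem exists_maximal_over {A : Type*} [CommRing A] [Module.Finite ℤ A]
    (χ : A →+* ℂ) {k : Type*} [Field k] (θ : A →+* k) (hθ : Function.Surjective θ)
    (hker : RingHom.ker χ ≤ RingHom.ker θ) :
    ∃ (ψ : A →+* integralClosure ℤ ℂ) (𝔪 : Ideal (integralClosure ℤ ℂ)), 𝔪.IsMaximal ∧
      (∀ t, ((ψ t : integralClosure ℤ ℂ) : ℂ) = χ t) ∧ ∀ t, θ t = 0 → ψ t ∈ 𝔪 := by
  classical
  have hint : ∀ t : A, χ t ∈ integralClosure ℤ ℂ := by
    intro t
    have h1 : IsIntegral ℤ t := IsIntegral.of_finite ℤ t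
    exact h1.map (χ.toIntAlgHom)
  let ψ : A →+* integralClosure ℤ ℂ :=
    { toFun := fun t => ⟨χ t, hint t⟩
      map_one' := Subtype.ext (map_one χ)
      map_mul' := fun a b => Subtype.ext (map_mul χ a b)
      map_zero' := Subtype.ext (map_zero χ)
      map_add' := fun a b => Subtype.ext (map_add χ a b) }
  have hψ : ∀ t, ((ψ t : integralClosure ℤ ℂ) : ℂ) = χ t := fun t => rfl
  letI : Algebra A (integralClosure ℤ ℂ) := ψ.toAlgebra
  haveI : Algebra.IsIntegral A (integralClosure ℤ ℂ) := by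
    constructor
    intro x
    have hx : IsIntegral ℤ x := Algebra.IsIntegral.isIntegral x
    obtain ⟨p, hp, hpx⟩ := hx
    refine ⟨p.map (algebraMap ℤ A), hp.map _, ?_⟩
    rw [← hpx]
    rw [Polynomial.eval₂_map]
    congr 1
    exact Subsingleton.elim _ _
  haveI hmax : (RingHom.ker θ).IsMaximal := RingHom.ker_isMaximal_of_surjective θ hθ
  have hker' : RingHom.ker (algebraMap A (integralClosure ℤ ℂ)) ≤ RingHom.ker θ := by
    intro t ht
    apply hker
    rw [RingHom.mem_ker] at ht ⊢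
    have : ψ t = 0 := ht
    rw [← hψ t, this]
    rfl
  obtain ⟨Q, hQmax, hQ⟩ := Ideal.exists_ideal_over_maximal_of_isIntegral
    (S := integralClosure ℤ ℂ) (RingHom.ker θ) hker'
  refine ⟨ψ, Q, hQmax, hψ, ?_⟩
  intro t ht
  have : t ∈ Ideal.comap (algebraMap A (integralClosure ℤ ℂ)) Q := by
    rw [hQ, RingHom.mem_ker]
    exact ht
  exact this

end Fermat.Agent.S49
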