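import Fermat.Statements.S49
import Fermat.Prelude.Def_CuspForm_HeckeLocal
import Fermat.Prelude.Thm_ModularFormClass_qCoeff_heckeT
import Fermat.Prelude.Thm_ModularFormClass_qCoeff_heckeU
import Fermat.Prelude.Thm_CongruenceSubgroup_one_mem_strictPeriods_Gamma0
import Fermat.Prelude.Thm_UpperHalfPlane_eq_of_forall_qCoeff_eq
import Fermat.Prelude.Sol.S_CuspForm_intLattice_fg
import Fermat.Agent.S49.Lift
import Fermat.Agent.S49.Coeff

set_option autoImplicit false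
set_option linter.style.haveILetI false

open ModularFormClass CongruenceSubgroup UpperHalfPlane

namespace Fermat.Agent.S49

variable {N : ℕ}

theorem hΓ0 (N : ℕ) :
    (1 : ℝ) ∈ (Subgroup.map (Matrix.SpecialLinearGroup.mapGL ℝ) (Gamma0 N)).strictPeriods :=
  CongruenceSubgroup.one_mem_strictPeriods_Gamma0 N

theorem qCoeff_add' (f g : CuspForm (Gamma0 N) 2) (n : ℕ) :
    qCoeff ⇑(f + g) n = qCoeff ⇑f n + qCoeff ⇑g n :=
  P2MW.S_CuspForm_intLattice_fg.W3WsD.qCoeff_add f g n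

theorem qCoeff_smul' (c : ℂ) (f : CuspForm (Gamma0 N) 2) (n : ℕ) :
    qCoeff ⇑(c • f) n = c * qCoeff ⇑f n := by
  have h1 : ⇑(c • f) = c • ⇑f := rfl
  simp only [qCoeff, h1]
  rw [ModularForm.qExpansion_smul one_pos (hΓ0 N) c f]
  simp

/-- The `n`-th `q`-expansion coefficient as a linear functional. -/
noncomputable def qc (N n : ℕ) : CuspForm (Gamma0 N) 2 →ₗ[ℂ] ℂ where
  toFun f := qCoeff ⇑f n
  map_add' f g := qCoeff_add' f g n
  map_smul' c f := by simpa using qCoeff_smul' c f n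

theorem qc_apply (n : ℕ) (f : CuspForm (Gamma0 N) 2) : qc N n f = qCoeff ⇑f n := rfl

theorem qc_zero_index (f : CuspForm (Gamma0 N) 2) : qc N 0 f = 0 := by
  rw [qc_apply]
  exact CuspFormClass.qExpansion_coeff_zero f one_pos (hΓ0 N)

theorem cuspForm_ext_qc {f g : CuspForm (Gamma0 N) 2} (h : ∀ n, qc N n f = qc N n g) : f = g := by
  have hcusp : Fact (IsCusp OnePoint.infty
      (Subgroup.map (Matrix.SpecialLinearGroup.mapGL ℝ) (Gamma0 N))) :=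
    ⟨Subgroup.isCusp_of_mem_strictPeriods one_pos (hΓ0 N)⟩
  apply DFunLike.coe_injective
  exact UpperHalfPlane.eq_of_forall_qCoeff_eq
    (SlashInvariantFormClass.periodic_comp_ofComplex f (hΓ0 N)) (ModularFormClass.holo f)
    (ModularFormClass.bdd_at_infty f)
    (SlashInvariantFormClass.periodic_comp_ofComplex g (hΓ0 N)) (ModularFormClass.holo g)
    (ModularFormClass.bdd_at_infty g) h

theorem qc_heckeT {ℓ : ℕ} (hℓ : ℓ.Prime) (hℓN : ¬ ℓ ∣ N) (f : CuspForm (Gamma0 N) 2) (n : ℕ) :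
    qc N n (CuspForm.heckeTLin 2 hℓ hℓN f) =
      qc N (n * ℓ) f + if ℓ ∣ n then (ℓ : ℂ) * qc N (n / ℓ) f else 0 := by
  rw [qc_apply, CuspForm.coe_heckeTLin_apply,
    ModularFormClass.qCoeff_heckeT f (hΓ0 N) hℓ.ne_zero n, ModularForm.coeffHeckeT_apply]
  simp [qc_apply]

theorem qc_heckeU [NeZero N] {ℓ : ℕ} (hℓ : ℓ.Prime) (hℓN : ℓ ∣ N) (f : CuspForm (Gamma0 N) 2)
    (n : ℕ) :
    qc N n (CuspForm.heckeULin 2 hℓN f) = qc N (n * ℓ) f := by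
  rw [qc_apply, CuspForm.coe_heckeULin_apply,
    ModularFormClass.qCoeff_heckeU f (hΓ0 N) hℓ.ne_zero n, ModularForm.coeffHeckeU_apply]
  rfl

/-- The Hecke operator at a prime `ℓ`: `T_ℓ` if `ℓ ∤ N`, `U_ℓ` if `ℓ ∣ N`. -/
noncomputable def heckeOp (N : ℕ) [NeZero N] (ℓ : ℕ) (hℓ : ℓ.Prime) :
    Module.End ℂ (CuspForm (Gamma0 N) 2) :=
  if h : ℓ ∣ N then CuspForm.heckeULin 2 h else CuspForm.heckeTLin 2 hℓ h

theorem heckeOp_mem [NeZero N] (ℓ : ℕ) (hℓ : ℓ.Prime) :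
    heckeOp N ℓ hℓ ∈ CuspForm.heckeAlgebra N 2 (∅ : Set ℕ) := by
  unfold heckeOp
  split_ifs with h
  · exact CuspForm.heckeULin_mem_heckeAlgebra hℓ h (Set.notMem_empty ℓ)
  · exact CuspForm.heckeTLin_mem_heckeAlgebra hℓ h (Set.notMem_empty ℓ)

theorem qc_heckeOp [NeZero N] (ℓ : ℕ) (hℓ : ℓ.Prime) (f : CuspForm (Gamma0 N) 2) (n : ℕ) :
    qc N n (heckeOp N ℓ hℓ f) = qc N (n * ℓ) f + corr N (fun m => qc N m f) ℓ n := by
  unfold heckeOp corr
  split_ifs with h h2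
  · rw [qc_heckeU hℓ h, add_zero]
  · rw [qc_heckeT hℓ h, if_pos h2]
  · rw [qc_heckeT hℓ h, if_neg h2]

theorem heckeGenerators_subset [NeZero N] :
    CuspForm.heckeGenerators N 2 (∅ : Set ℕ) ⊆
      {T | ∃ (ℓ : ℕ) (hℓ : ℓ.Prime), T = heckeOp N ℓ hℓ} := by
  rintro T (⟨ℓ, hℓ, hℓN, -, rfl⟩ | ⟨q, hqN, hq, -, rfl⟩)
  · refine ⟨ℓ, hℓ, ?_⟩
    unfold heckeOp
    rw [dif_neg hℓN]
  · refine ⟨q, hq, ?_⟩
    unfold heckeOp
    rw [dif_pos hqN]

end Fermat.Agent.S49
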