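import Fermat.Agent.S49.Mod3

set_option autoImplicit false
set_option linter.style.haveILetI false

open ModularFormClass CongruenceSubgroup UpperHalfPlane EisensteinWeightOne

namespace Fermat.Agent.S49

variable {N : ℕ} [NeZero N]

omit [NeZero N] in
theorem qIntegralSet_subset_intLattice :
    CuspForm.qIntegralSet N ⊆ ((CuspForm.intLattice N 2 : Submodule ℤ _) : Set _) := by
  intro f hf
  apply mem_intLattice_of_int_coeff
  intro n
  obtain ⟨m, hm⟩ := Subring.mem_bot.mp (hf n)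
  exact ⟨m, hm.symm⟩

omit [NeZero N] in
theorem hasIntegralStructure_of_hasIntegralBasis (h : CuspForm.HasIntegralBasis N) :
    CuspForm.HasIntegralStructure N 2 := by
  unfold CuspForm.HasIntegralStructure
  unfold CuspForm.HasIntegralBasis at h
  rw [eq_top_iff, ← h]
  exact Submodule.span_mono qIntegralSet_subset_intLattice

theorem finiteDimensional_of_hasIntegralBasis (h : CuspForm.HasIntegralBasis N) :
    FiniteDimensional ℂ (CuspForm (Gamma0 N) 2) := by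
  have hfg := CuspForm.intLattice_fg N 2
  obtain ⟨S₀, hS₀⟩ := hfg
  have hint := hasIntegralStructure_of_hasIntegralBasis h
  unfold CuspForm.HasIntegralStructure at hint
  rw [← hS₀, Submodule.span_span_of_tower] at hint
  exact Module.Finite.of_fg_top ⟨S₀, hint⟩  

theorem heckeAlgebra_finite (h : CuspForm.HasIntegralBasis N) :
    Module.Finite ℤ ↥(CuspForm.heckeAlgebra N 2 (∅ : Set ℕ)) := by
  have hbij := CuspForm.latticeRestrictHom_bijective N (∅ : Set ℕ)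
    (hasIntegralStructure_of_hasIntegralBasis h)
  exact Module.Finite.of_injective (CuspForm.latticeRestrictHom N (∅ : Set ℕ)).toLinearMap hbij.1

end Fermat.Agent.S49

namespace Fermat.Agent.S49

variable {N : ℕ} [NeZero N]

/-- The eigen-property modulo `3` of an operator `t` on the realising form `f₀`. -/
def EigMod3 (N : ℕ) (f₀ : CuspForm (Gamma0 N) 2) (t : Module.End ℂ (CuspForm (Gamma0 N) 2))
    (c : ℤ) : Prop :=
  D3 N (t f₀ - (c : ℂ) • f₀)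

theorem eigMod3_generator (f₀ : CuspForm (Gamma0 N) 2) (a af : ℕ → ℤ)
    (haf : ∀ n, (af n : ℂ) = qCoeff ⇑f₀ n) (hcong : ∀ n, (3 : ℤ) ∣ af n - a n)
    (heig : FormalHecke.IsEigensystem
      (fun ℓ => if ℓ ∣ N then 0 else ((chiNegThree ℓ : ℤ) : ℤ)) a)
    (ℓ : ℕ) (hℓ : ℓ.Prime) : EigMod3 N f₀ (heckeOp N ℓ hℓ) (a ℓ) := by
  intro n
  obtain ⟨m, hm⟩ := mod3_key N a af heig hcong ℓ hℓ n
  refine ⟨m, ?_⟩
  rw [map_sub, map_smul, qc_heckeOp, smul_eq_mul]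
  have hq : ∀ k, qc N k f₀ = (af k : ℂ) := fun k => (haf k).symm
  simp only [hq, corr]
  have hm' := congrArg (fun z : ℤ => (z : ℂ)) hm
  simp only [Int.cast_sub, Int.cast_add, Int.cast_mul] at hm'
  rw [← Int.cast_ofNat (R := ℂ) (n := 3)]
  rw [← hm']
  split_ifs <;> simp

omit [NeZero N] in
theorem eigMod3_algebraMap (f₀ : CuspForm (Gamma0 N) 2) (r : ℤ) :
    EigMod3 N f₀ (algebraMap ℤ (Module.End ℂ (CuspForm (Gamma0 N) 2)) r) r := by
  have : (algebraMap ℤ (Module.End ℂ (CuspForm (Gamma0 N) 2)) r) f₀ = (r : ℂ) • f₀ := by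
    rw [Module.algebraMap_end_apply]
    exact (Int.cast_smul_eq_zsmul ℂ r f₀).symm
  unfold EigMod3
  rw [this, sub_self]
  exact D3_zero

omit [NeZero N] in
theorem eigMod3_add (f₀ : CuspForm (Gamma0 N) 2) {x y : Module.End ℂ (CuspForm (Gamma0 N) 2)}
    {c d : ℤ} (hx : EigMod3 N f₀ x c) (hy : EigMod3 N f₀ y d) :
    EigMod3 N f₀ (x + y) (c + d) := by
  unfold EigMod3 at *
  have : (x + y) f₀ - ((c + d : ℤ) : ℂ) • f₀ = (x f₀ - (c : ℂ) • f₀) + (y f₀ - (d : ℂ) • f₀) := by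
    rw [LinearMap.add_apply]
    push_cast
    rw [add_smul]
    abel
  rw [this]
  exact D3_add hx hy

theorem eigMod3_mul (f₀ : CuspForm (Gamma0 N) 2) {x y : Module.End ℂ (CuspForm (Gamma0 N) 2)}
    (hxm : x ∈ CuspForm.heckeAlgebra N 2 (∅ : Set ℕ))
    {c d : ℤ} (hx : EigMod3 N f₀ x c) (hy : EigMod3 N f₀ y d) :
    EigMod3 N f₀ (x * y) (c * d) := by
  unfold EigMod3 at *
  have : (x * y) f₀ - ((c * d : ℤ) : ℂ) • f₀ =
      x (y f₀ - (d : ℂ) • f₀) + (d : ℂ) • (x f₀ - (c : ℂ) • f₀) := by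
    rw [Module.End.mul_apply, map_sub, map_smul, smul_sub, smul_smul]
    push_cast
    rw [mul_comm (d : ℂ) (c : ℂ)]
    abel
  rw [this]
  exact D3_add (D3_apply hxm hy) (D3_zsmul d hx)

theorem exists_eigMod3 (f₀ : CuspForm (Gamma0 N) 2) (a af : ℕ → ℤ)
    (haf : ∀ n, (af n : ℂ) = qCoeff ⇑f₀ n) (hcong : ∀ n, (3 : ℤ) ∣ af n - a n)
    (heig : FormalHecke.IsEigensystem
      (fun ℓ => if ℓ ∣ N then 0 else ((chiNegThree ℓ : ℤ) : ℤ)) a)
    {t : Module.End ℂ (CuspForm (Gamma0 N) 2)}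
    (ht : t ∈ CuspForm.heckeAlgebra N 2 (∅ : Set ℕ)) : ∃ c : ℤ, EigMod3 N f₀ t c := by
  unfold CuspForm.heckeAlgebra at ht
  induction ht using Algebra.adjoin_induction with
  | mem x hx =>
    obtain ⟨ℓ, hℓ, rfl⟩ := heckeGenerators_subset hx
    exact ⟨a ℓ, eigMod3_generator f₀ a af haf hcong heig ℓ hℓ⟩
  | algebraMap r => exact ⟨r, eigMod3_algebraMap f₀ r⟩
  | add x y hx hy ihx ihy =>
    obtain ⟨c, hc⟩ := ihx
    obtain ⟨d, hd⟩ := ihy
    exact ⟨c + d, eigMod3_add f₀ hc hd⟩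
  | mul x y hx hy ihx ihy =>
    obtain ⟨c, hc⟩ := ihx
    obtain ⟨d, hd⟩ := ihy
    exact ⟨c * d, eigMod3_mul f₀ hx hc hd⟩

omit [NeZero N] in
theorem eigMod3_unique (f₀ : CuspForm (Gamma0 N) 2) (a af : ℕ → ℤ)
    (haf : ∀ n, (af n : ℂ) = qCoeff ⇑f₀ n) (hcong : ∀ n, (3 : ℤ) ∣ af n - a n)
    (ha1 : a 1 = 1)
    {t : Module.End ℂ (CuspForm (Gamma0 N) 2)} {c d : ℤ}
    (hc : EigMod3 N f₀ t c) (hd : EigMod3 N f₀ t d) : (c : ZMod 3) = (d : ZMod 3) := by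
  obtain ⟨m1, h1⟩ := hc 1
  obtain ⟨m2, h2⟩ := hd 1
  have hq1 : qc N 1 f₀ = (af 1 : ℂ) := (haf 1).symm
  rw [map_sub, map_smul, smul_eq_mul, hq1] at h1 h2
  have h3 : ((d - c) * af 1 : ℤ) = 3 * (m1 - m2) := by
    have : (((d - c) * af 1 : ℤ) : ℂ) = ((3 * (m1 - m2) : ℤ) : ℂ) := by
      push_cast
      linear_combination h1 - h2
    exact_mod_cast this
  have h4 := congrArg (fun z : ℤ => (z : ZMod 3)) h3
  simp only [Int.cast_mul, Int.cast_sub] at h4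
  have haf1 : ((af 1 : ℤ) : ZMod 3) = 1 := by
    have := (ZMod.intCast_zmod_eq_zero_iff_dvd (af 1 - a 1) 3).mpr (by exact_mod_cast hcong 1)
    rw [Int.cast_sub, sub_eq_zero, ha1] at this
    simpa using this
  rw [haf1, mul_one] at h4
  have h5 : ((3 : ℤ) : ZMod 3) = 0 := by decide
  rw [h5, zero_mul] at h4
  exact (sub_eq_zero.mp h4).symm

theorem exists_mod3_character (f₀ : CuspForm (Gamma0 N) 2) (a af : ℕ → ℤ)
    (haf : ∀ n, (af n : ℂ) = qCoeff ⇑f₀ n) (hcong : ∀ n, (3 : ℤ) ∣ af n - a n)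
    (heig : FormalHecke.IsEigensystem
      (fun ℓ => if ℓ ∣ N then 0 else ((chiNegThree ℓ : ℤ) : ℤ)) a) :
    ∃ θ : ↥(CuspForm.heckeAlgebra N 2 (∅ : Set ℕ)) →+* ZMod 3,
      ∀ (ℓ : ℕ) (hℓ : ℓ.Prime), θ ⟨heckeOp N ℓ hℓ, heckeOp_mem ℓ hℓ⟩ = ((a ℓ : ℤ) : ZMod 3) := by
  classical
  have hE : ∀ t : ↥(CuspForm.heckeAlgebra N 2 (∅ : Set ℕ)), ∃ c : ℤ, EigMod3 N f₀ t.1 c :=
    fun t => exists_eigMod3 f₀ a af haf hcong heig t.2
  choose w hw using hE
  have huniq : ∀ (t : ↥(CuspForm.heckeAlgebra N 2 (∅ : Set ℕ))) (c : ℤ),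
      EigMod3 N f₀ t.1 c → ((w t : ℤ) : ZMod 3) = (c : ZMod 3) :=
    fun t c hc => eigMod3_unique f₀ a af haf hcong heig.1 (hw t) hc
  refine ⟨{ toFun := fun t => ((w t : ℤ) : ZMod 3)
            map_one' := ?_
            map_mul' := ?_
            map_zero' := ?_
            map_add' := ?_ }, ?_⟩
  · have := huniq 1 1 (by simpa using eigMod3_algebraMap f₀ (1 : ℤ))
    simpa using this
  · intro x y
    have := huniq (x * y) (w x * w y) (eigMod3_mul f₀ x.2 (hw x) (hw y))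
    simpa using this
  · have := huniq 0 0 (by simpa using eigMod3_algebraMap f₀ (0 : ℤ))
    simpa using this
  · intro x y
    have := huniq (x + y) (w x + w y) (eigMod3_add f₀ (hw x) (hw y))
    simpa using this
  · intro ℓ hℓ
    exact huniq ⟨heckeOp N ℓ hℓ, heckeOp_mem ℓ hℓ⟩ (a ℓ)
      (eigMod3_generator f₀ a af haf hcong heig ℓ hℓ)

end Fermat.Agent.S49

namespace Fermat.Agent.S49

variable {N : ℕ} [NeZero N]

theorem lifting_main
    (h : CuspForm.HasIntegralBasis N) {a : ℕ → ℤ}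
    (heig : FormalHecke.IsEigensystem
      (fun ℓ => if ℓ ∣ N then 0 else ((chiNegThree ℓ : ℤ) : ℤ)) a)
    (hreal : CuspForm.IsLatticeRealized N a) :
    ∃ (f : CuspForm (Gamma0 N) 2) (_ : f.IsNormalizedEigenform)
      (𝔪' : Ideal (integralClosure ℤ ℂ)), 𝔪'.IsMaximal ∧
      ((3 : ℕ) : integralClosure ℤ ℂ) ∈ 𝔪' ∧
      ∀ (ℓ : ℕ) (_ : ℓ.Prime) (_ : ¬ ℓ ∣ N),
        ∃ c : integralClosure ℤ ℂ, (c : ℂ) = ModularFormClass.qCoeff f ℓ ∧
          c - (a ℓ : integralClosure ℤ ℂ) ∈ 𝔪' := by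
  classical
  obtain ⟨f₀, -, af, haf, hcong0⟩ := hreal
  have hcong : ∀ n, (3 : ℤ) ∣ af n - a n := by
    intro n
    have h1 := hcong0 n
    have h2 := bridge_cong a n
    have := dvd_add h1 h2
    simpa using this
  haveI hfd := finiteDimensional_of_hasIntegralBasis h
  haveI hfin := heckeAlgebra_finite h
  obtain ⟨θ, hθ⟩ := exists_mod3_character f₀ a af haf hcong heig
  obtain ⟨v, χ, hv0, hχ, hker⟩ := exists_eigen_character
    (A := ↥(CuspForm.heckeAlgebra N 2 (∅ : Set ℕ)))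
    (ρ := (CuspForm.heckeAlgebra N 2 (∅ : Set ℕ)).val.toRingHom) Subtype.val_injective θ
  obtain ⟨ψ, 𝔪, hmax, hψ, h𝔪⟩ := exists_maximal_over χ θ (ZMod.ringHom_surjective θ) hker
  -- coefficients of the eigenvector
  let T : ∀ ℓ : ℕ, ℓ.Prime → ↥(CuspForm.heckeAlgebra N 2 (∅ : Set ℕ)) :=
    fun ℓ hℓ => ⟨heckeOp N ℓ hℓ, heckeOp_mem ℓ hℓ⟩
  let lam : ℕ → ℂ := fun ℓ => if hℓ : ℓ.Prime then χ (T ℓ hℓ) else 0
  have hlam : ∀ ℓ (hℓ : ℓ.Prime), lam ℓ = χ (T ℓ hℓ) := by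
    intro ℓ hℓ
    simp only [lam, dif_pos hℓ]
  have hrel : HeckeRel N (fun n => qc N n v) lam := by
    intro ℓ hℓ n
    have h1 : heckeOp N ℓ hℓ v = χ (T ℓ hℓ) • v := hχ (T ℓ hℓ)
    have h2 := congrArg (qc N n) h1
    rw [qc_heckeOp, map_smul, smul_eq_mul] at h2
    rw [hlam ℓ hℓ]
    exact h2
  have hb1 : qc N 1 v ≠ 0 := by
    intro h1
    have hvan := hrel.vanish h1
    apply hv0
    apply cuspForm_ext_qc
    intro n
    rw [map_zero]
    rcases Nat.eq_zero_or_pos n with h0 | hpos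
    · rw [h0]; exact qc_zero_index v
    · exact hvan n hpos
  set g : CuspForm (Gamma0 N) 2 := (qc N 1 v)⁻¹ • v with hg
  have hqg : ∀ n, qc N n g = (qc N 1 v)⁻¹ * qc N n v := by
    intro n
    rw [hg, map_smul, smul_eq_mul]
  have hg1 : qc N 1 g = 1 := by
    rw [hqg, inv_mul_cancel₀ hb1]
  have hrelg : HeckeRel N (fun n => qc N n g) lam := by
    intro ℓ hℓ n
    have := hrel ℓ hℓ n
    simp only [hqg]
    have hcorr : corr N (fun m => (qc N 1 v)⁻¹ * qc N m v) ℓ n =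
        (qc N 1 v)⁻¹ * corr N (fun m => qc N m v) ℓ n := by
      unfold corr
      split_ifs <;> ring
    rw [hcorr, ← mul_add, this]
    ring
  have hself : HeckeRel N (fun n => qc N n g) (fun n => qc N n g) := hrelg.self_of_one hg1
  have heigen : g.IsNormalizedEigenform :=
    { qCoeff_one := hg1
      qCoeff_mul_of_coprime := hself.mul_of_coprime hg1
      qCoeff_prime_pow_of_not_dvd := fun p r hp hpN => hself.prime_pow_of_not_dvd p r hp hpN
      qCoeff_prime_pow_of_dvd := fun p r hp hpN => hself.prime_pow_of_dvd p r hp hpN }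
  refine ⟨g, heigen, 𝔪, hmax, ?_, ?_⟩
  · have h3 : θ ((3 : ℕ) : ↥(CuspForm.heckeAlgebra N 2 (∅ : Set ℕ))) = 0 := by
      rw [map_natCast]
      decide
    have := h𝔪 _ h3
    rwa [map_natCast] at this
  · intro ℓ hℓ hℓN
    refine ⟨ψ (T ℓ hℓ), ?_, ?_⟩
    · rw [hψ, ← hlam ℓ hℓ, hrelg.eigenvalue_eq hg1 hℓ]
      rfl
    · have h4 : θ (T ℓ hℓ - ((a ℓ : ℤ) : ↥(CuspForm.heckeAlgebra N 2 (∅ : Set ℕ)))) = 0 := by
        rw [map_sub, map_intCast, hθ ℓ hℓ, sub_self]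
      have := h𝔪 _ h4
      rwa [map_sub, map_intCast] at this

end Fermat.Agent.S49
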