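import Fermat.Agent.S49.Hecke

set_option autoImplicit false
set_option linter.style.haveILetI false

open ModularFormClass CongruenceSubgroup UpperHalfPlane EisensteinWeightOne

namespace Fermat.Agent.S49

variable {N : ℕ}

theorem chiNegThree_cast_zmod (ℓ : ℕ) : ((chiNegThree ℓ : ℤ) : ZMod 3) = (ℓ : ZMod 3) := by
  have h3 : (ℓ : ZMod 3) = ((ℓ % 3 : ℕ) : ZMod 3) := by
    rw [ZMod.natCast_mod]
  rw [h3]
  unfold chiNegThree
  have hlt : ℓ % 3 < 3 := Nat.mod_lt _ (by norm_num)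
  interval_cases h : ℓ % 3
  · simp
  · simp
  · simp
    decide

theorem e1Chi3In_int_eq :
    e1Chi3In ℤ = 1 + PowerSeries.C (3 : ℤ) *
      PowerSeries.mk (fun n => if n = 0 then (0 : ℤ) else 2 * sigmaChi n) := by
  ext n
  unfold e1Chi3In e1Chi3
  rw [PowerSeries.coeff_map, PowerSeries.coeff_mk, map_add, PowerSeries.coeff_one,
    PowerSeries.coeff_C_mul, PowerSeries.coeff_mk]
  by_cases hn : n = 0
  · simp [hn]
  · simp [hn]
    ring

theorem bridge_cong (a : ℕ → ℤ) (n : ℕ) : (3 : ℤ) ∣ (bridgeProduct a).coeff n - a n := by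
  unfold bridgeProduct
  rw [e1Chi3In_int_eq, mul_add, mul_one, ← mul_assoc, mul_comm (PowerSeries.mk a) (PowerSeries.C 3),
    mul_assoc, map_add, PowerSeries.coeff_mk, PowerSeries.coeff_C_mul]
  rw [add_sub_cancel_left]
  exact dvd_mul_right _ _

theorem mod3_key (N : ℕ) (a af : ℕ → ℤ)
    (heig : FormalHecke.IsEigensystem
      (fun ℓ => if ℓ ∣ N then 0 else ((chiNegThree ℓ : ℤ) : ℤ)) a)
    (hcong : ∀ n, (3 : ℤ) ∣ af n - a n) (ℓ : ℕ) (hℓ : ℓ.Prime) (n : ℕ) :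
    (3 : ℤ) ∣ af (n * ℓ) + (if ℓ ∣ N then 0 else if ℓ ∣ n then (ℓ : ℤ) * af (n / ℓ) else 0)
      - a ℓ * af n := by
  have hc : ∀ m, ((af m : ℤ) : ZMod 3) = ((a m : ℤ) : ZMod 3) := by
    intro m
    have := (ZMod.intCast_zmod_eq_zero_iff_dvd (af m - a m) 3).mpr (by exact_mod_cast hcong m)
    rw [Int.cast_sub, sub_eq_zero] at this
    exact this
  have hrel := heig.2 ℓ hℓ n
  have hrel' := congrArg (fun z : ℤ => (z : ZMod 3)) hrel
  simp only [Int.cast_add, Int.cast_mul] at hrel'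
  have key : (((af (n * ℓ) + (if ℓ ∣ N then 0 else if ℓ ∣ n then (ℓ : ℤ) * af (n / ℓ) else 0)
      - a ℓ * af n : ℤ)) : ZMod 3) = 0 := by
    rw [Int.cast_sub, Int.cast_add, Int.cast_mul, hc, hc, mul_comm n ℓ, ← hrel']
    by_cases hN : ℓ ∣ N
    · simp [hN]
    · by_cases hd : ℓ ∣ n
      · simp only [hN, hd, if_false, if_true, Int.cast_mul, hc, chiNegThree_cast_zmod]
        simp
      · simp [hN, hd]
  exact_mod_cast (ZMod.intCast_zmod_eq_zero_iff_dvd _ 3).mp key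

/-- Divisibility of all `q`-coefficients by `3`. -/
def D3 (N : ℕ) (g : CuspForm (Gamma0 N) 2) : Prop :=
  ∀ n, ∃ m : ℤ, qc N n g = 3 * (m : ℂ)

theorem D3_zero : D3 N 0 := by
  intro n
  exact ⟨0, by simp⟩

theorem D3_add {g h : CuspForm (Gamma0 N) 2} (hg : D3 N g) (hh : D3 N h) : D3 N (g + h) := by
  intro n
  obtain ⟨m1, h1⟩ := hg n
  obtain ⟨m2, h2⟩ := hh n
  refine ⟨m1 + m2, ?_⟩
  rw [map_add, h1, h2]
  push_cast
  ring

theorem D3_zsmul {g : CuspForm (Gamma0 N) 2} (c : ℤ) (hg : D3 N g) : D3 N ((c : ℂ) • g) := by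
  intro n
  obtain ⟨m1, h1⟩ := hg n
  refine ⟨c * m1, ?_⟩
  rw [map_smul, h1, smul_eq_mul]
  push_cast
  ring

theorem mem_intLattice_of_int_coeff {g : CuspForm (Gamma0 N) 2}
    (hg : ∀ n, ∃ m : ℤ, qc N n g = (m : ℂ)) : g ∈ CuspForm.intLattice N 2 :=
  Submodule.subset_span hg

theorem int_coeff_of_mem_intLattice {g : CuspForm (Gamma0 N) 2}
    (hg : g ∈ CuspForm.intLattice N 2) : ∀ n, ∃ m : ℤ, qc N n g = (m : ℂ) :=
  (P2MW.S_CuspForm_intLattice_fg.W3WsD.mem_intLattice_iff g).mp hg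

theorem D3_apply [NeZero N] {t : Module.End ℂ (CuspForm (Gamma0 N) 2)}
    (ht : t ∈ CuspForm.heckeAlgebra N 2 (∅ : Set ℕ)) {g : CuspForm (Gamma0 N) 2}
    (hg : D3 N g) : D3 N (t g) := by
  have h3 : g = (3 : ℂ) • ((3 : ℂ)⁻¹ • g) := by
    rw [smul_smul, mul_inv_cancel₀ (by norm_num : (3 : ℂ) ≠ 0), one_smul]
  have hint : ((3 : ℂ)⁻¹ • g) ∈ CuspForm.intLattice N 2 := by
    apply mem_intLattice_of_int_coeff
    intro n
    obtain ⟨m, hm⟩ := hg n
    refine ⟨m, ?_⟩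
    rw [map_smul, hm, smul_eq_mul]
    field_simp
  have hint' := CuspForm.mem_intLattice_of_mem_heckeAlgebra one_le_two ht hint
  intro n
  obtain ⟨m, hm⟩ := int_coeff_of_mem_intLattice hint' n
  refine ⟨m, ?_⟩
  rw [h3, map_smul, map_smul, hm, smul_eq_mul]

end Fermat.Agent.S49
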